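/-
Row 37 (S43), abstract core, `p`-torsion form (helper1 #1481, helper5 #7381; written by helper214).
Mathlib only.

`R` : the (commutative) Hecke algebra at level `Γ_H`, containing `T = δ - 1`, `α = U_q`, `β = q / α`
and the element `g` with `T g = β - α - κ α Nm` (this is (F1));
`W` : the Galois module at level `Γ_H`; `Sg`, `Ph` : a generator of tame inertia and a Frobenius at `q`;
`A ≤ W` : the filtration step (`Sg = δ`, `Ph = β` on `A`; `Sg = 1`, `Ph = α` on `W / A`);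
`W0` : the Galois module at level `Γ₀`, `pr = π_*`, `inc = π^*`.

* `T_smul_b`   : `T (Ph - α) = (β - α - κ α Nm) (Sg - 1)`;
* `T_smul_y`, `a_y`, `y_a` : the three relations for `y = Ph - α - g (Sg - 1)`;
* `core`       : if `ker N₀ = im N₀` on `W0` and inertia acts trivially on the socle of `W0`, then `W0 = 0`.
-/
import Mathlib

set_option autoImplicit false

namespace Fermat.Agent.S43.Core

open Finset

variable {R W : Type*} [CommRing R] [AddCommGroup W] [Module R W]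

/-- The norm element `∑_{k < P} (1 + T) ^ k`. -/
def Nm (T : R) (P : ℕ) : R := ∑ k ∈ range P, (1 + T) ^ k

theorem T_mul_Nm (T : R) (P : ℕ) (hδ : (1 + T) ^ P = 1) : T * Nm T P = 0 := by
  have h := Commute.geom_sum₂_mul (Commute.one_right (1 + T)) P
  simp only [one_pow, mul_one] at h
  have h2 : (∑ k ∈ range P, (1 + T) ^ k) * T = 0 := by
    have e : (1 + T) - 1 = T := by ring
    rw [e] at h
    rw [h, hδ, sub_self]
  rw [Nm, mul_comm]
  exact h2

theorem sum_pow_eq (T : R) (P κ : ℕ) (hδ : (1 + T) ^ P = 1) :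
    ∑ k ∈ range (1 + κ * P), (1 + T) ^ k = 1 + κ * Nm T P := by
  induction κ with
  | zero => simp
  | succ n ih =>
    have e : 1 + (n + 1) * P = (1 + n * P) + P := by ring
    rw [e, sum_range_add, ih]
    have h2 : ∀ k ∈ range P, (1 + T) ^ (1 + n * P + k) = (1 + T) * (1 + T) ^ k := by
      intro k _
      rw [pow_add, pow_add, pow_one, mul_comm n P, pow_mul, hδ, one_pow, mul_one]
    rw [sum_congr rfl h2, ← mul_sum]
    have h3 : (1 + T) * ∑ k ∈ range P, (1 + T) ^ k = Nm T P := by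
      have := T_mul_Nm T P hδ
      rw [Nm] at this ⊢
      linear_combination this
    rw [h3]
    push_cast
    ring

/-- The data at level `Γ_H`. -/
structure Data (R W : Type*) [CommRing R] [AddCommGroup W] [Module R W] where
  T : R
  α : R
  β : R
  g : R
  P : ℕ
  κ : ℕ
  Sg : W →ₗ[R] W
  Ph : W →ₗ[R] W
  A : Submodule R W
  hδ : (1 + T) ^ P = 1
  comm : ∀ w, Ph (Sg w) = (Sg ^ (1 + κ * P)) (Ph w)
  Sg_sub : ∀ w, Sg w - w ∈ A
  Ph_sub : ∀ w, Ph w - α • w ∈ A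
  Sg_A : ∀ x ∈ A, Sg x = (1 + T) • x
  Ph_A : ∀ x ∈ A, Ph x = β • x
  hg : ∀ x ∈ A, (T * g) • x = (β - α - κ * α * Nm T P) • x

namespace Data

variable (D : Data R W)

/-- `a = Sg - 1`. -/
def a : W →ₗ[R] W := D.Sg - 1

/-- `b = Ph - α`. -/
def b : W →ₗ[R] W := D.Ph - D.α • 1

/-- `y = Ph - α - g (Sg - 1)`. -/
def y : W →ₗ[R] W := D.b - D.g • D.a

theorem a_apply (w : W) : D.a w = D.Sg w - w := rfl

theorem b_apply (w : W) : D.b w = D.Ph w - D.α • w := rfl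

theorem y_apply (w : W) : D.y w = D.b w - D.g • D.a w := rfl

theorem a_mem (w : W) : D.a w ∈ D.A := D.Sg_sub w

theorem b_mem (w : W) : D.b w ∈ D.A := D.Ph_sub w

theorem a_of_mem {x : W} (hx : x ∈ D.A) : D.a x = D.T • x := by
  rw [a_apply, D.Sg_A x hx, add_smul, one_smul, add_sub_cancel_left]

theorem b_of_mem {x : W} (hx : x ∈ D.A) : D.b x = (D.β - D.α) • x := by
  rw [b_apply, D.Ph_A x hx, sub_smul]

theorem Sg_pow_of_mem (k : ℕ) {x : W} (hx : x ∈ D.A) : (D.Sg ^ k) x = (1 + D.T) ^ k • x := by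
  induction k with
  | zero => simp
  | succ n ih =>
    rw [pow_succ', Module.End.mul_apply, ih, map_smul, D.Sg_A x hx, smul_smul, pow_succ]

/-- `Sg ^ k - 1 = (∑_{i < k} (1 + T) ^ i) (Sg - 1)`. -/
theorem Sg_pow_sub (k : ℕ) (w : W) :
    (D.Sg ^ k) w - w = (∑ i ∈ range k, (1 + D.T) ^ i) • D.a w := by
  induction k with
  | zero => simp
  | succ n ih =>
    have h1 : (D.Sg ^ (n + 1)) w = (D.Sg ^ n) (D.a w) + (D.Sg ^ n) w := by
      rw [pow_succ, Module.End.mul_apply, a_apply, map_sub, sub_add_cancel]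
    rw [h1, D.Sg_pow_of_mem n (D.a_mem w), add_sub_assoc, ih, sum_range_succ, add_smul, add_comm]

/-- **The exact identity** `T (Ph - α) = (β - α - κ α Nm) (Sg - 1)`. -/
theorem T_smul_b (w : W) :
    D.T • D.b w = (D.β - D.α - D.κ * D.α * Nm D.T D.P) • D.a w := by
  have h1 : D.Ph (D.a w) = D.β • D.a w := D.Ph_A _ (D.a_mem w)
  have h2 : D.Ph (D.a w) = (D.Sg ^ (1 + D.κ * D.P)) (D.Ph w) - D.Ph w := by
    rw [a_apply, map_sub, D.comm]
  rw [D.Sg_pow_sub, sum_pow_eq _ _ _ D.hδ] at h2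
  have h3 : D.a (D.Ph w) = D.T • D.b w + D.α • D.a w := by
    have e : D.Ph w = D.b w + D.α • w := by rw [b_apply, sub_add_cancel]
    rw [e, map_add, map_smul, D.a_of_mem (D.b_mem w)]
  rw [h3, h1] at h2
  have h4 : (D.T * Nm D.T D.P) • D.b w = 0 := by rw [T_mul_Nm _ _ D.hδ, zero_smul]
  have h5 : (1 + (D.κ : R) * Nm D.T D.P) • (D.T • D.b w + D.α • D.a w) =
      D.T • D.b w + (D.κ : R) • ((D.T * Nm D.T D.P) • D.b w) +
        (D.α + D.κ * D.α * Nm D.T D.P) • D.a w := by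
    rw [smul_add, smul_smul, smul_smul, smul_smul, ← add_smul]
    congr 1
    · congr 1
      ring
    · congr 1
      ring
  rw [h5, h4, smul_zero, add_zero] at h2
  rw [sub_smul, sub_smul, h2, add_smul]
  abel

theorem T_smul_y (w : W) : D.T • D.y w = 0 := by
  rw [y_apply, smul_sub, D.T_smul_b, smul_smul, D.hg _ (D.a_mem w), sub_self]

theorem a_y (w : W) : D.a (D.y w) = 0 := by
  have h : D.y w ∈ D.A := D.A.sub_mem (D.b_mem w) (D.A.smul_mem _ (D.a_mem w))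
  rw [D.a_of_mem h, D.T_smul_y]

theorem y_a (w : W) : D.y (D.a w) = (D.κ * D.α * Nm D.T D.P) • D.a w := by
  rw [y_apply, D.b_of_mem (D.a_mem w), D.a_of_mem (D.a_mem w), smul_smul, mul_comm D.g D.T,
    D.hg _ (D.a_mem w), ← sub_smul]
  congr 1
  ring

theorem y_T_smul (w : W) : D.y (D.T • w) = 0 := by rw [map_smul, D.T_smul_y]

end Data

/-- **The deformation step**: the operator `Z₀` on the module `W0` at level `Γ₀`
(`pr = π_*`, `inc = π^*`); it is `R`-linear, i.e. it commutes with the Hecke operators. -/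
theorem exists_Z0 {W0 : Type*} [AddCommGroup W0] [Module R W0] (D : Data R W)
    (pr : W →ₗ[R] W0) (inc : W0 →ₗ[R] W) (N0 : W0 →ₗ[R] W0)
    (pr_surj : Function.Surjective pr) (ker_pr : ∀ w, pr w = 0 → ∃ v, w = D.T • v)
    (inc_inj : Function.Injective inc) (range_inc : ∀ w, D.T • w = 0 → ∃ x, inc x = w)
    (inc_pr : ∀ w, inc (pr w) = Nm D.T D.P • w)
    (pr_a : ∀ w, pr (D.a w) = N0 (pr w)) :
    ∃ Z₀ : W0 →ₗ[R] W0, (∀ w, inc (Z₀ (pr w)) = D.y w) ∧ (∀ x, N0 (Z₀ x) = 0) ∧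
      ∀ x, Z₀ (N0 x) = ((D.κ : R) * D.α) • N0 x := by
  classical
  have hex : ∀ w : W, ∃ z : W0, inc z = D.y w := fun w => range_inc _ (D.T_smul_y w)
  have hwd : ∀ w w' : W, pr w = pr w' → D.y w = D.y w' := by
    intro w w' h
    obtain ⟨v, hv⟩ := ker_pr (w - w') (by rw [map_sub, h, sub_self])
    have : D.y (w - w') = 0 := by rw [hv, D.y_T_smul]
    rwa [map_sub, sub_eq_zero] at this
  choose lift hlift using pr_surj
  choose zz hzz using hex
  let Z : W0 → W0 := fun x => zz (lift x)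
  have hZ : ∀ w : W, inc (Z (pr w)) = D.y w := by
    intro w
    show inc (zz (lift (pr w))) = _
    rw [hzz]
    exact hwd _ _ (hlift _)
  have Z_add : ∀ x x', Z (x + x') = Z x + Z x' := by
    intro x x'
    apply inc_inj
    obtain ⟨w, rfl⟩ : ∃ w, pr w = x := ⟨lift x, hlift x⟩
    obtain ⟨w', rfl⟩ : ∃ w, pr w = x' := ⟨lift x', hlift x'⟩
    rw [← map_add, hZ, map_add, map_add, hZ, hZ]
  have Z_smul : ∀ (r : R) x, Z (r • x) = r • Z x := by
    intro r x
    apply inc_inj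
    obtain ⟨w, rfl⟩ : ∃ w, pr w = x := ⟨lift x, hlift x⟩
    rw [← map_smul, hZ, map_smul, map_smul, hZ]
  let Z₀ : W0 →ₗ[R] W0 := { toFun := Z, map_add' := Z_add, map_smul' := Z_smul }
  have hZ₀ : ∀ w : W, inc (Z₀ (pr w)) = D.y w := hZ
  have inc_N0 : ∀ x, inc (N0 x) = D.a (inc x) := by
    intro x
    obtain ⟨w, rfl⟩ : ∃ w, pr w = x := ⟨lift x, hlift x⟩
    rw [← pr_a, inc_pr, inc_pr, map_smul]
  refine ⟨Z₀, hZ₀, ?_, ?_⟩
  · intro x
    apply inc_inj
    obtain ⟨w, rfl⟩ : ∃ w, pr w = x := ⟨lift x, hlift x⟩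
    rw [inc_N0, hZ₀, D.a_y, map_zero]
  · intro x
    apply inc_inj
    obtain ⟨w, rfl⟩ : ∃ w, pr w = x := ⟨lift x, hlift x⟩
    rw [← pr_a, hZ₀, D.y_a, map_smul, inc_pr, smul_smul]

/-- **The abstract core.**  If `ker N₀ ⊆ im N₀` on `W0` and inertia acts trivially on the socle of
`W0`, then `W0 = 0`. -/
theorem core {W0 : Type*} [AddCommGroup W0] [Module R W0] (D : Data R W)
    (pr : W →ₗ[R] W0) (inc : W0 →ₗ[R] W) (N0 : W0 →ₗ[R] W0)
    (pr_surj : Function.Surjective pr) (ker_pr : ∀ w, pr w = 0 → ∃ v, w = D.T • v)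
    (inc_inj : Function.Injective inc) (range_inc : ∀ w, D.T • w = 0 → ∃ x, inc x = w)
    (inc_pr : ∀ w, inc (pr w) = Nm D.T D.P • w)
    (pr_a : ∀ w, pr (D.a w) = N0 (pr w))
    (c : R) (hc : ∀ x : W0, (c * (D.κ * D.α)) • x = x)
    (hE : ∀ x, N0 x = 0 → ∃ z, N0 z = x)
    (m : Ideal R)
    (hsoc : ∀ S : Submodule R W0, S ≠ ⊥ → ∃ x ∈ S, x ≠ 0 ∧ ∀ r ∈ m, r • x = 0)
    (hunr : ∀ x : W0, (∀ r ∈ m, r • x = 0) → N0 x = 0) :
    ∀ x : W0, x = 0 := by
  obtain ⟨Z₀, -, NZ, ZN⟩ :=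
    exists_Z0 D pr inc N0 pr_surj ker_pr inc_inj range_inc inc_pr pr_a
  let Pi : W0 →ₗ[R] W0 := c • Z₀
  have Pi_N : ∀ x, Pi (N0 x) = N0 x := by
    intro x
    show c • Z₀ (N0 x) = _
    rw [ZN, smul_smul, hc]
  have N_Pi : ∀ x, N0 (Pi x) = 0 := by
    intro x
    show N0 (c • Z₀ x) = 0
    rw [map_smul, NZ, smul_zero]
  have Pi_ker : ∀ x, N0 x = 0 → Pi x = x := by
    intro x hx
    obtain ⟨z, rfl⟩ := hE x hx
    exact Pi_N z
  have hS : LinearMap.range (1 - Pi) = ⊥ := by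
    by_contra hne
    obtain ⟨x, ⟨z, rfl⟩, hx0, hxm⟩ := hsoc _ hne
    apply hx0
    have h1 := Pi_ker _ (hunr _ hxm)
    have h2 : Pi ((1 - Pi) z) = 0 := by
      show Pi (z - Pi z) = 0
      rw [map_sub, Pi_ker _ (N_Pi z), sub_self]
    rw [← h1, h2]
  have hid : ∀ x, Pi x = x := by
    intro x
    have : (1 - Pi) x ∈ LinearMap.range (1 - Pi) := ⟨x, rfl⟩
    rw [hS, Submodule.mem_bot] at this
    have h2 : x - Pi x = 0 := this
    exact (sub_eq_zero.mp h2).symm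
  intro x
  have h0 : ∀ z, N0 z = 0 := fun z => by rw [← hid z]; exact N_Pi z
  obtain ⟨z, rfl⟩ := hE x (h0 x)
  exact h0 z

end Fermat.Agent.S43.Core
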