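/-
Row 37 (S43), abstract core WITHOUT the Hecke element `g` (helper94).  Mathlib only.

`p`-torsion form of helper5 (#7381) + the commutator trick of helper41 (CORE'), at the level of elements:
no operator `g`, hence no (F1)/(K1)/ALPHA (no modular forms at level `Γ_H`, no `q`-expansion duality, nothing at
`p`), and still only `n = p` (no Tate modules, no `p ^ k`-torsion).

`R` : a commutative ring acting on `W` (Hecke algebra at level `Γ_H`), with `T = δ - 1`, `α = U_q`, `β = q / α`;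
`Sg`, `Ph` : a generator of tame inertia and a Frobenius at `q`;  `A ≤ W` : the filtration step.
Inputs replacing `g`:
* `hc0`  : `c = β - α - κ α Nm` kills `W / T W`               (`U_q ^ 2 = 1` at level `Γ₀`);
* `hker`, `hkerNm` : `ker T ⊆ im Nm`, `ker Nm ⊆ im T`          (`Λ̄`-freeness);
* `h5`   : `Sg - 1 = ∑ t i • e i`, `t i ∈ R` nilpotent, `e i` `R`-linear  (`ρ̄` unramified + BLR at level `Γ_H`);
* `hE`   : `ker N₀ ⊆ im N₀` on `W / T W`.
Conclusion: `W = T W`.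
-/
import Fermat.Agent.S43.Core.Torsion

set_option autoImplicit false

namespace Fermat.Agent.S43.CoreNG

open Finset Fermat.Agent.S43.Core

variable {R W : Type*} [CommRing R] [AddCommGroup W] [Module R W]

/-- The data at level `Γ_H` (no `g`). -/
structure Data (R W : Type*) [CommRing R] [AddCommGroup W] [Module R W] where
  T : R
  α : R
  β : R
  P : ℕ
  κ : ℕ
  Sg : W →ₗ[R] W
  Ph : W →ₗ[R] W
  A : Submodule R W
  hδ : (1 + T) ^ P = 1
  comm : ∀ w, Ph (Sg w) = (Sg ^ (1 + κ * P)) (Ph w)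
  Sg_sub : ∀ w, Sg w - w ∈ A
  Ph_sub : ∀ w, Ph w - α • w ∈ A
  Sg_A : ∀ x ∈ A, Sg x = (1 + T) • x
  Ph_A : ∀ x ∈ A, Ph x = β • x

namespace Data

variable (D : Data R W)

/-- `a = Sg - 1`. -/
def a : W →ₗ[R] W := D.Sg - 1

/-- `b = Ph - α`. -/
def b : W →ₗ[R] W := D.Ph - D.α • 1

/-- `c = β - α - κ α Nm`. -/
def c : R := D.β - D.α - D.κ * D.α * Nm D.T D.P

/-- the norm element -/
def nm : R := Nm D.T D.P

theorem a_apply (w : W) : D.a w = D.Sg w - w := rfl

theorem b_apply (w : W) : D.b w = D.Ph w - D.α • w := rfl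

theorem a_mem (w : W) : D.a w ∈ D.A := D.Sg_sub w

theorem b_mem (w : W) : D.b w ∈ D.A := D.Ph_sub w

theorem a_of_mem {x : W} (hx : x ∈ D.A) : D.a x = D.T • x := by
  rw [a_apply, D.Sg_A x hx, add_smul, one_smul, add_sub_cancel_left]

theorem b_of_mem {x : W} (hx : x ∈ D.A) : D.b x = (D.β - D.α) • x := by
  rw [b_apply, D.Ph_A x hx, sub_smul]

theorem Sg_pow_of_mem (k : ℕ) {x : W} (hx : x ∈ D.A) : (D.Sg ^ k) x = (1 + D.T) ^ k • x := by
  induction k with
  | zero => simp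
  | succ n ih =>
    rw [pow_succ', Module.End.mul_apply, ih, map_smul, D.Sg_A x hx, smul_smul, pow_succ]

theorem Sg_pow_sub (k : ℕ) (w : W) :
    (D.Sg ^ k) w - w = (∑ i ∈ range k, (1 + D.T) ^ i) • D.a w := by
  induction k with
  | zero => simp
  | succ n ih =>
    have h1 : (D.Sg ^ (n + 1)) w = (D.Sg ^ n) (D.a w) + (D.Sg ^ n) w := by
      rw [pow_succ, Module.End.mul_apply, a_apply, map_sub, sub_add_cancel]
    rw [h1, D.Sg_pow_of_mem n (D.a_mem w), add_sub_assoc, ih, sum_range_succ, add_smul, add_comm]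

/-- **The exact identity** `T (Ph - α) = c (Sg - 1)`. -/
theorem T_smul_b (w : W) : D.T • D.b w = D.c • D.a w := by
  have h1 : D.Ph (D.a w) = D.β • D.a w := D.Ph_A _ (D.a_mem w)
  have h2 : D.Ph (D.a w) = (D.Sg ^ (1 + D.κ * D.P)) (D.Ph w) - D.Ph w := by
    rw [a_apply, map_sub, D.comm]
  rw [D.Sg_pow_sub, sum_pow_eq _ _ _ D.hδ] at h2
  have h3 : D.a (D.Ph w) = D.T • D.b w + D.α • D.a w := by
    have e : D.Ph w = D.b w + D.α • w := by rw [b_apply, sub_add_cancel]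
    rw [e, map_add, map_smul, D.a_of_mem (D.b_mem w)]
  rw [h3, h1] at h2
  have h4 : (D.T * Nm D.T D.P) • D.b w = 0 := by rw [T_mul_Nm _ _ D.hδ, zero_smul]
  have h5 : (1 + (D.κ : R) * Nm D.T D.P) • (D.T • D.b w + D.α • D.a w) =
      D.T • D.b w + (D.κ : R) • ((D.T * Nm D.T D.P) • D.b w) +
        (D.α + D.κ * D.α * Nm D.T D.P) • D.a w := by
    rw [smul_add, smul_smul, smul_smul, smul_smul, ← add_smul]
    congr 1
    · congr 1
      ring
    · congr 1
      ring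
  rw [h5, h4, smul_zero, add_zero] at h2
  rw [c, sub_smul, sub_smul, h2, add_smul]
  abel

/-- `a ∘ a = T a`. -/
theorem a_a (w : W) : D.a (D.a w) = D.T • D.a w := D.a_of_mem (D.a_mem w)

/-- `a ∘ b = T b`. -/
theorem a_b (w : W) : D.a (D.b w) = D.T • D.b w := D.a_of_mem (D.b_mem w)

/-- `b a = c a + κ α Nm a`. -/
theorem b_a (w : W) : D.b (D.a w) = D.c • D.a w + (D.κ * D.α * D.nm) • D.a w := by
  rw [D.b_of_mem (D.a_mem w), ← add_smul, c, nm]
  congr 1
  ring

end Data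

/-- The submodule `V = Nm (Sg - 1) W`. -/
def V (D : Data R W) : Submodule R W := LinearMap.range (D.nm • D.a)

theorem mem_V (D : Data R W) (w : W) : D.nm • D.a w ∈ V D := ⟨w, rfl⟩

/-- **Key step.**  `κ α V ⊆ ∑ t i V`. -/
theorem key (D : Data R W)
    (hc0 : ∀ w : W, ∃ z : W, D.c • w = D.T • z)
    (hker : ∀ w : W, D.T • w = 0 → ∃ r : W, w = D.nm • r)
    (hkerNm : ∀ w : W, D.nm • w = 0 → ∃ r : W, w = D.T • r)
    (hE : ∀ w : W, (∃ r : W, D.a w = D.T • r) → ∃ s r : W, w = D.a s + D.T • r)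
    {ι : Type*} (J : Finset ι) (t : ι → R) (e : ι → (W →ₗ[R] W))
    (h5 : ∀ w : W, D.a w = ∑ i ∈ J, t i • e i w) (v : W) :
    (D.κ * D.α) • (D.nm • D.a v) ∈ Ideal.span (t '' (J : Set ι)) • V D := by
  classical
  have hTnm : D.T * D.nm = 0 := T_mul_Nm _ _ D.hδ
  have hmem : ∀ i ∈ J, ∀ y ∈ V D, t i • y ∈ Ideal.span (t '' (J : Set ι)) • V D := by
    intro i hi y hy
    exact Submodule.smul_mem_smul (Ideal.subset_span ⟨i, hi, rfl⟩) hy
  choose zz hzz using hc0
  -- the elements `w_i = b (e_i v) - a z_i`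
  have hw : ∀ i, ∃ s : W, D.b (e i v) - D.a (zz (e i v)) = D.nm • D.a s := by
    intro i
    have h1 : D.T • (D.b (e i v) - D.a (zz (e i v))) = 0 := by
      rw [smul_sub, D.T_smul_b, ← map_smul D.a D.T, ← hzz, map_smul, sub_self]
    obtain ⟨r, hr⟩ := hker _ h1
    have h2 : D.a (D.b (e i v) - D.a (zz (e i v))) = 0 := by
      rw [map_sub, D.a_b, D.a_a, ← smul_sub, h1]
    rw [hr, map_smul] at h2
    obtain ⟨r', hr'⟩ := hkerNm _ h2
    obtain ⟨s, r'', hs⟩ := hE r ⟨r', hr'⟩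
    refine ⟨s, ?_⟩
    rw [hr, hs, smul_add, smul_smul, mul_comm D.nm D.T, hTnm, zero_smul, add_zero]
  choose ss hss using hw
  -- the elements `z_i - e_i z_v`
  have hz : ∀ i, ∃ r : W, zz (e i v) - e i (zz v) = D.nm • r := by
    intro i
    apply hker
    rw [smul_sub, ← hzz, ← map_smul (e i) D.T, ← hzz, map_smul, sub_self]
  choose rr hrr using hz
  set x := D.a v with hx
  set z := ∑ i ∈ J, t i • zz (e i v) with hzdef
  -- (2) `b x - a z ∈ ∑ t_i V`
  have e2 : D.b x - D.a z = ∑ i ∈ J, t i • (D.nm • D.a (ss i)) := by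
    rw [hx, h5 v, hzdef, map_sum, map_sum, ← Finset.sum_sub_distrib]
    refine Finset.sum_congr rfl fun i _ => ?_
    rw [map_smul, map_smul, ← smul_sub, hss]
  -- (3) `a z - c x ∈ ∑ t_i V`
  have e3 : D.a z - D.c • x = ∑ i ∈ J, t i • (D.nm • D.a (rr i)) := by
    have h1 : z = D.a (zz v) + ∑ i ∈ J, t i • (D.nm • rr i) := by
      rw [h5 (zz v), hzdef, ← Finset.sum_add_distrib]
      refine Finset.sum_congr rfl fun i _ => ?_
      rw [← smul_add, ← hrr, add_sub_cancel]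
    have h2 : D.a (D.a (zz v)) = D.c • x := by
      rw [D.a_a, ← map_smul, ← hzz, map_smul]
    rw [h1, map_add, h2, add_sub_cancel_left, map_sum]
    refine Finset.sum_congr rfl fun i _ => ?_
    rw [map_smul, map_smul]
  have e1 : (D.κ * D.α) • (D.nm • x) = (D.b x - D.a z) + (D.a z - D.c • x) := by
    rw [sub_add_sub_cancel, hx, D.b_a, add_sub_cancel_left, smul_smul]
  rw [e1, e2, e3]
  refine Submodule.add_mem _ ?_ ?_
  · exact Submodule.sum_mem _ fun i hi => hmem i hi _ (mem_V D _)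
  · exact Submodule.sum_mem _ fun i hi => hmem i hi _ (mem_V D _)

/-- **The abstract core without `g`.**  `W = T W`. -/
theorem core [Module.Finite R W] (D : Data R W)
    (hc0 : ∀ w : W, ∃ z : W, D.c • w = D.T • z)
    (hker : ∀ w : W, D.T • w = 0 → ∃ r : W, w = D.nm • r)
    (hkerNm : ∀ w : W, D.nm • w = 0 → ∃ r : W, w = D.T • r)
    (hE : ∀ w : W, (∃ r : W, D.a w = D.T • r) → ∃ s r : W, w = D.a s + D.T • r)
    {ι : Type*} (J : Finset ι) (t : ι → R) (e : ι → (W →ₗ[R] W))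
    (h5 : ∀ w : W, D.a w = ∑ i ∈ J, t i • e i w)
    (hnil : ∀ i ∈ J, IsNilpotent (t i))
    (c' : R) (hc' : ∀ w : W, (c' * (D.κ * D.α)) • w = w) :
    ∀ w : W, ∃ r : W, w = D.T • r := by
  classical
  set I : Ideal R := Ideal.span (t '' (J : Set ι)) with hI
  have hle : V D ≤ I • V D := by
    rintro _ ⟨v, rfl⟩
    have h1 := key D hc0 hker hkerNm hE J t e h5 v
    have h2 := (I • V D).smul_mem c' h1
    rw [smul_smul, hc'] at h2
    exact h2
  have hfg : (V D).FG := by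
    rw [V, LinearMap.range_eq_map]
    exact (Module.Finite.fg_top).map _
  have hjac : I ≤ Ideal.jacobson ⊥ := by
    rw [hI, Ideal.span_le]
    rintro _ ⟨i, hi, rfl⟩
    have h1 : t i ∈ nilradical R := (mem_nilradical).2 (hnil i hi)
    rw [nilradical_eq_sInf] at h1
    rw [SetLike.mem_coe, Ideal.jacobson, Ideal.mem_sInf]
    intro 𝔪 h𝔪
    exact (Ideal.mem_sInf.1 h1) h𝔪.2.isPrime
  have hV : V D = ⊥ := Submodule.eq_bot_of_le_smul_of_le_jacobson_bot I _ hfg hle hjac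
  have h0 : ∀ w : W, D.nm • D.a w = 0 := by
    intro w
    have := mem_V D w
    rwa [hV, Submodule.mem_bot] at this
  intro w
  obtain ⟨s, r, hs⟩ := hE w (hkerNm _ (h0 w))
  obtain ⟨r', hr'⟩ := hkerNm _ (h0 s)
  exact ⟨r' + r, by rw [hs, hr', smul_add]⟩

end Fermat.Agent.S43.CoreNG
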